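import Mathlib

/-!
# FF2 / S32C (S32M board, leaf L3 (CHI)): the `χ`-trick maps `χ ⊗ id : 𝒪 ⊗[ℤ] X → X`

`𝒪` a commutative ring, `X` an abelian group killed by `n ≠ 0`, `χ : 𝒪 →+ ZMod n` additive.

* `chiX hX χ : 𝒪 ⊗[ℤ] X →+ X`, `chiX hX χ (c ⊗ₜ x) = ((χ c).val : ℤ) • x`;
* `chiX_baseChange` : `chiX hX χ (f.baseChange 𝒪 z) = f (chiX hX χ z)` for `f : X →ₗ[ℤ] X`
  (`chiX_map_toIntLinearMap` for `f : X →+ X`);
* `chiX_smul_tmul` : `chiX hX χ (c • (c' ⊗ₜ x)) = ((χ (c * c')).val : ℤ) • x`;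
* `natCast_smul_eq_zero`, `smul_top_eq_bot` : `𝒪 ⊗[ℤ] X` is killed by `n`;
* `finite_tensor` : `𝒪 ⊗[ℤ] X` is finite if `X` and `𝒪 ⧸ (n)` are;
* `sum_zsmul_baseChange_apply_eq_zero` : an integral combination of endomorphisms of `X` which
  vanishes on `X` vanishes on `𝒪 ⊗[ℤ] X` after base change (`Finsupp.sum` form, as in the
  annihilator criterion), and `baseChange_eq_zero`.

Mathlib only.
-/

set_option autoImplicit false

open TensorProduct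

namespace Fermat.Agent.FF2.S32C

variable {𝒪 : Type*} [CommRing 𝒪] {X : Type*} [AddCommGroup X] {n : ℕ} [NeZero n]

/-- `a ↦ (a.val : ℤ) • x` is additive on `ZMod n` when `n` kills `x`. -/
theorem val_add_zsmul (hX : ∀ x : X, (n : ℤ) • x = 0) (a b : ZMod n) (x : X) :
    (((a + b).val : ℕ) : ℤ) • x = ((a.val : ℕ) : ℤ) • x + ((b.val : ℕ) : ℤ) • x := by
  have h1 : (a + b).val = (a.val + b.val) % n := ZMod.val_add a b
  have h2 : ((a.val + b.val : ℕ) : ℤ) =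
      (((a.val + b.val) % n : ℕ) : ℤ) + (n : ℤ) * (((a.val + b.val) / n : ℕ) : ℤ) := by
    have := Nat.mod_add_div (a.val + b.val) n
    exact_mod_cast this.symm
  rw [← add_smul, ← Nat.cast_add, h2, add_smul, mul_smul, hX, add_zero, h1]

/-- `a ↦ (a.val : ℤ) • x` is multiplicative in the integer `k`: `((k • a).val) • x = k • a.val • x`
when `n` kills `x`. -/
theorem val_intCast_mul_zsmul (hX : ∀ x : X, (n : ℤ) • x = 0) (k : ℤ) (a : ZMod n) (x : X) :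
    ((((k : ZMod n) * a).val : ℕ) : ℤ) • x = k • (((a.val : ℕ) : ℤ) • x) := by
  have h1 : ((((k : ZMod n) * a).val : ℕ) : ℤ) ≡ k * ((a.val : ℕ) : ℤ) [ZMOD (n : ℤ)] := by
    rw [← ZMod.intCast_eq_intCast_iff]
    push_cast
    rw [ZMod.natCast_zmod_val, ZMod.natCast_zmod_val]
  obtain ⟨t, ht⟩ := h1.symm.dvd
  have h2 : ((((k : ZMod n) * a).val : ℕ) : ℤ) = k * ((a.val : ℕ) : ℤ) + (n : ℤ) * t := by
    linarith
  rw [h2, add_smul, mul_smul, mul_smul, hX, add_zero]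

/-- The biadditive map `(c, x) ↦ ((χ c).val : ℤ) • x`. -/
def chiHom (hX : ∀ x : X, (n : ℤ) • x = 0) (χ : 𝒪 →+ ZMod n) : 𝒪 →+ X →+ X :=
  AddMonoidHom.mk' (fun c => (((χ c).val : ℕ) : ℤ) • AddMonoidHom.id X) (by
    intro c c'
    ext x
    simp only [map_add, AddMonoidHom.add_apply, AddMonoidHom.smul_apply, AddMonoidHom.id_apply]
    exact val_add_zsmul hX _ _ x)

@[simp] theorem chiHom_apply (hX : ∀ x : X, (n : ℤ) • x = 0) (χ : 𝒪 →+ ZMod n) (c : 𝒪) (x : X) :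
    chiHom hX χ c x = (((χ c).val : ℕ) : ℤ) • x := rfl

/-- **`χ ⊗ id`** : `𝒪 ⊗[ℤ] X →+ X`, `c ⊗ₜ x ↦ ((χ c).val : ℤ) • x`. -/
noncomputable def chiX (hX : ∀ x : X, (n : ℤ) • x = 0) (χ : 𝒪 →+ ZMod n) : 𝒪 ⊗[ℤ] X →+ X :=
  TensorProduct.liftAddHom (chiHom hX χ) (by
    intro r c x
    rw [map_zsmul, AddMonoidHom.smul_apply, map_zsmul])

@[simp] theorem chiX_tmul (hX : ∀ x : X, (n : ℤ) • x = 0) (χ : 𝒪 →+ ZMod n) (c : 𝒪) (x : X) :
    chiX hX χ (c ⊗ₜ[ℤ] x) = (((χ c).val : ℕ) : ℤ) • x := rfl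

/-- `χ ⊗ id` intertwines `f.baseChange 𝒪 = id ⊗ f` and `f`. -/
theorem chiX_baseChange (hX : ∀ x : X, (n : ℤ) • x = 0) (χ : 𝒪 →+ ZMod n) (f : X →ₗ[ℤ] X)
    (z : 𝒪 ⊗[ℤ] X) : chiX hX χ (f.baseChange 𝒪 z) = f (chiX hX χ z) := by
  induction z using TensorProduct.induction_on with
  | zero => simp
  | tmul c x => rw [LinearMap.baseChange_tmul, chiX_tmul, chiX_tmul, map_zsmul]
  | add z w hz hw => rw [map_add, map_add, hz, hw, map_add, map_add]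

/-- The same for additive endomorphisms of `X`. -/
theorem chiX_baseChange_toIntLinearMap (hX : ∀ x : X, (n : ℤ) • x = 0) (χ : 𝒪 →+ ZMod n)
    (f : X →+ X) (z : 𝒪 ⊗[ℤ] X) :
    chiX hX χ (f.toIntLinearMap.baseChange 𝒪 z) = f (chiX hX χ z) :=
  chiX_baseChange hX χ f.toIntLinearMap z

/-- `χ ⊗ id` on `c • (c' ⊗ x)`. -/
theorem chiX_smul_tmul (hX : ∀ x : X, (n : ℤ) • x = 0) (χ : 𝒪 →+ ZMod n) (c c' : 𝒪) (x : X) :
    chiX hX χ (c • (c' ⊗ₜ[ℤ] x)) = (((χ (c * c')).val : ℕ) : ℤ) • x := by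
  rw [TensorProduct.smul_tmul', smul_eq_mul, chiX_tmul]

/-- `χ ⊗ id` on `c • (1 ⊗ x)`. -/
theorem chiX_smul_one_tmul (hX : ∀ x : X, (n : ℤ) • x = 0) (χ : 𝒪 →+ ZMod n) (c : 𝒪) (x : X) :
    chiX hX χ (c • ((1 : 𝒪) ⊗ₜ[ℤ] x)) = (((χ c).val : ℕ) : ℤ) • x := by
  rw [chiX_smul_tmul, mul_one]

/-- `χ ⊗ id` of a finite sum `∑ c_i • (1 ⊗ x_i)`. -/
theorem chiX_sum_smul_one_tmul (hX : ∀ x : X, (n : ℤ) • x = 0) (χ : 𝒪 →+ ZMod n)
    {ι : Type*} (s : Finset ι) (c : ι → 𝒪) (x : ι → X) :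
    chiX hX χ (∑ i ∈ s, c i • ((1 : 𝒪) ⊗ₜ[ℤ] x i)) = ∑ i ∈ s, (((χ (c i)).val : ℕ) : ℤ) • x i := by
  rw [map_sum]
  exact Finset.sum_congr rfl fun i _ => chiX_smul_one_tmul hX χ (c i) (x i)

/-! ### `𝒪 ⊗[ℤ] X` is killed by `n` and finite -/

omit [NeZero n] in
/-- `𝒪 ⊗[ℤ] X` is killed by `n` (as an integer). -/
theorem intCast_smul_eq_zero (hX : ∀ x : X, (n : ℤ) • x = 0) (z : 𝒪 ⊗[ℤ] X) :
    (n : ℤ) • z = 0 := by
  induction z using TensorProduct.induction_on with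
  | zero => simp
  | tmul c x => rw [← TensorProduct.tmul_smul, hX, TensorProduct.tmul_zero]
  | add z w hz hw => rw [smul_add, hz, hw, add_zero]

omit [NeZero n] in
/-- `𝒪 ⊗[ℤ] X` is killed by `(n : 𝒪)`. -/
theorem natCast_smul_eq_zero (hX : ∀ x : X, (n : ℤ) • x = 0) (z : 𝒪 ⊗[ℤ] X) :
    (n : 𝒪) • z = 0 := by
  have h : (n : 𝒪) • z = (n : ℤ) • z := by
    rw [← Int.cast_natCast (R := 𝒪), Int.cast_smul_eq_zsmul]
  rw [h, intCast_smul_eq_zero hX]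

omit [NeZero n] in
theorem smul_top_eq_bot (hX : ∀ x : X, (n : ℤ) • x = 0) :
    (Ideal.span {(n : 𝒪)}) • (⊤ : Submodule 𝒪 (𝒪 ⊗[ℤ] X)) = ⊥ := by
  rw [eq_bot_iff, Submodule.smul_le]
  intro r hr z _
  obtain ⟨a, rfl⟩ := Ideal.mem_span_singleton'.mp hr
  rw [Submodule.mem_bot, mul_smul, natCast_smul_eq_zero hX, smul_zero]

omit [NeZero n] in
/-- **Finiteness of `𝒪 ⊗[ℤ] X`.** -/
theorem finite_tensor (hX : ∀ x : X, (n : ℤ) • x = 0) [Finite X]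
    [Finite (𝒪 ⧸ Ideal.span {(n : 𝒪)})] : Finite (𝒪 ⊗[ℤ] X) := by
  have : Module.Finite ℤ X := Module.Finite.of_finite
  have hfg : (⊤ : Submodule 𝒪 (𝒪 ⊗[ℤ] X)).FG := Module.Finite.fg_top
  have : Finite ((𝒪 ⊗[ℤ] X) ⧸ (⊤ : Submodule 𝒪 (𝒪 ⊗[ℤ] X))) := inferInstance
  have hq := Submodule.finite_quotient_smul (Ideal.span {(n : 𝒪)})
    (N := (⊤ : Submodule 𝒪 (𝒪 ⊗[ℤ] X))) hfg
  rw [smul_top_eq_bot hX] at hq
  exact Finite.of_equiv _ (Submodule.quotEquivOfEqBot (⊥ : Submodule 𝒪 (𝒪 ⊗[ℤ] X)) rfl).toEquiv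

omit [NeZero n] in
/-- **Finiteness of `𝒪 ⊗[ℤ] X`**, `ℕ`-scalar form of the hypothesis. -/
theorem finite_tensor_nsmul (hX : ∀ x : X, n • x = 0) [Finite X]
    [Finite (𝒪 ⧸ Ideal.span {(n : 𝒪)})] : Finite (𝒪 ⊗[ℤ] X) :=
  finite_tensor (n := n) (fun x => by rw [natCast_zsmul]; exact hX x)

/-! ### Integral combinations of endomorphisms after base change -/

omit [NeZero n] in
/-- If `u = 0` on `X` then `u.baseChange 𝒪 = 0`. -/
theorem baseChange_eq_zero (u : X →ₗ[ℤ] X) (h : ∀ x, u x = 0) : u.baseChange 𝒪 = 0 := by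
  have : u = 0 := LinearMap.ext h
  rw [this, LinearMap.baseChange_zero]

omit [NeZero n] in
/-- **An integral combination of endomorphisms vanishing on `X` vanishes on `𝒪 ⊗[ℤ] X`.** -/
theorem sum_zsmul_baseChange_apply_eq_zero {G : Type*} (a : G → X →ₗ[ℤ] X) (u : G →₀ ℤ)
    (h : ∀ x : X, (u.sum fun g k => k • a g x) = 0) (z : 𝒪 ⊗[ℤ] X) :
    (u.sum fun g k => k • (a g).baseChange 𝒪 z) = 0 := by
  induction z using TensorProduct.induction_on with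
  | zero => simp [Finsupp.sum]
  | tmul c x =>
    have h1 : (u.sum fun g k => k • (a g).baseChange 𝒪 (c ⊗ₜ[ℤ] x)) =
        c ⊗ₜ[ℤ] (u.sum fun g k => k • a g x) := by
      simp only [Finsupp.sum, LinearMap.baseChange_tmul, TensorProduct.tmul_sum,
        TensorProduct.tmul_smul]
    rw [h1, h x, TensorProduct.tmul_zero]
  | add z w hz hw =>
    have h1 : (u.sum fun g k => k • (a g).baseChange 𝒪 (z + w)) =
        (u.sum fun g k => k • (a g).baseChange 𝒪 z) +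
          (u.sum fun g k => k • (a g).baseChange 𝒪 w) := by
      simp only [Finsupp.sum, map_add, smul_add, Finset.sum_add_distrib]
    rw [h1, hz, hw, add_zero]

omit [NeZero n] in
/-- The same for additive endomorphisms (`AddMonoid.End X` / `X →+ X`). -/
theorem sum_zsmul_baseChange_toIntLinearMap_apply_eq_zero {G : Type*} (a : G → X →+ X)
    (u : G →₀ ℤ) (h : ∀ x : X, (u.sum fun g k => k • a g x) = 0) (z : 𝒪 ⊗[ℤ] X) :
    (u.sum fun g k => k • (a g).toIntLinearMap.baseChange 𝒪 z) = 0 :=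
  sum_zsmul_baseChange_apply_eq_zero (fun g => (a g).toIntLinearMap) u h z

/-! ### Adapters for `n = p ^ m` -/

section PrimePow

variable {p m : ℕ}

omit [NeZero n] in
/-- Cast adapter: `(p : ℤ) ^ m` kills `X` iff `((p ^ m : ℕ) : ℤ)` does. -/
theorem natCast_pow_zsmul_eq_zero (hX : ∀ x : X, ((p : ℤ) ^ m) • x = 0) (x : X) :
    ((p ^ m : ℕ) : ℤ) • x = 0 := by
  rw [Nat.cast_pow]; exact hX x

omit [NeZero n] in
/-- **Finiteness of `𝒪 ⊗[ℤ] X`**, `p ^ m`-form. -/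
theorem finite_tensor_pow (hX : ∀ x : X, ((p : ℤ) ^ m) • x = 0) [Finite X]
    [hfin : Finite (𝒪 ⧸ Ideal.span {(p : 𝒪) ^ m})] : Finite (𝒪 ⊗[ℤ] X) := by
  have : Finite (𝒪 ⧸ Ideal.span {((p ^ m : ℕ) : 𝒪)}) := by
    rw [Nat.cast_pow]; exact hfin
  exact finite_tensor (n := p ^ m) (natCast_pow_zsmul_eq_zero hX)

end PrimePow

end Fermat.Agent.FF2.S32C
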